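/-
helper525 — S59, cell TW: basis transfer from RANGE EQUALITIES (second half of the two-structure
lemma, usable with any source of `(ρY g - 1) V = (ρX g - 1) V`, e.g. helper314's TW-ALG).

`basis_of_range_eq` : `D` finite commutative `p`-group, `p` odd, `p ∈ Jac O`; `ρX ρY : D →* End_O V`;
`(ρX d (b i))` an `O`-basis of `V`; `S` generates `D` and `range (ρY g - 1) = range (ρX g - 1)` for
`g ∈ S`.  Then `(ρY d (b i))` is an `O`-basis of `V`.

Mathlib + `S59/H525/{TwoStructure,FreeTransfer,BasisTransfer}.lean` only.
-/
import Fermat.Agent.S59.H525.BasisTransfer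

namespace Fermat.Agent.S59.H525

section RangeEq

variable {O V D ι : Type*} [CommRing O] [AddCommGroup V] [Module O V] [CommGroup D]

/-- **Basis transfer from range equalities.** -/
theorem basis_of_range_eq {p : ℕ} [Fintype D] [Fintype ι] [Nontrivial O] (hp : p.Prime)
    (hodd : Odd p) (hpJ : (p : O) ∈ Ideal.jacobson (⊥ : Ideal O))
    (hD : ∃ a : ℕ, Fintype.card D = p ^ a)
    (ρX ρY : D →* Module.End O V)
    (b : ι → V)
    (hli : LinearIndependent O (fun z : D × ι => ρX z.1 (b z.2)))
    (hsp : Submodule.span O (Set.range fun z : D × ι => ρX z.1 (b z.2)) = ⊤)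
    (S : Set D) (hS : Subgroup.closure S = ⊤)
    (hrange : ∀ g ∈ S, LinearMap.range (ρY g - 1) = LinearMap.range (ρX g - 1)) :
    LinearIndependent O (fun z : D × ι => ρY z.1 (b z.2)) ∧
      Submodule.span O (Set.range fun z : D × ι => ρY z.1 (b z.2)) = ⊤ := by
  classical
  let B : Module.Basis (D × ι) O V := Module.Basis.mk hli (by rw [hsp])
  -- spanning
  set W : Submodule O V := Submodule.span O (Set.range fun z : D × ι => ρY z.1 (b z.2)) with hW
  have hWY : ∀ g : D, ∀ w ∈ W, ρY g w ∈ W := by
    intro g w hw
    induction hw using Submodule.span_induction with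
    | mem x hx =>
      obtain ⟨z, rfl⟩ := hx
      apply Submodule.subset_span
      exact ⟨(g * z.1, z.2), by simp only [map_mul, Module.End.mul_apply]⟩
    | zero => rw [map_zero]; exact W.zero_mem
    | add x y _ _ hx hy => rw [map_add]; exact W.add_mem hx hy
    | smul c x _ hx => rw [map_smul]; exact W.smul_mem c hx
  set pV : Submodule O V := (Ideal.span {(p : O)}) • (⊤ : Submodule O V) with hpV
  have hpVstab : ∀ (f : V →ₗ[O] V), ∀ z ∈ pV, f z ∈ pV := by
    intro f z hz
    refine Submodule.smul_induction_on hz ?_ ?_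
    · intro r hr n _
      rw [map_smul]
      exact Submodule.smul_mem_smul hr Submodule.mem_top
    · intro x y hx hy
      rw [map_add]
      exact pV.add_mem hx hy
  let N : D → (V →ₗ[O] V) := fun g => ρY g - 1
  have hNcomm : ∀ g h, Commute (N g) (N h) := by
    intro g h
    have : Commute (ρY g) (ρY h) := by
      show ρY g * ρY h = ρY h * ρY g
      rw [← map_mul, ← map_mul, mul_comm]
    exact (this.sub_left (Commute.one_left _)).sub_right (Commute.one_right _)
  obtain ⟨a, ha⟩ := hD
  have hnil : ∀ g v, ((N g) ^ (p ^ a)) v ∈ pV := by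
    intro g v
    apply sub_one_pow_mem hp hodd (ρY g) a
    rw [← map_pow, ← ha, pow_card_eq_one, map_one]
  have hZstab : ∀ g, ∀ z ∈ W ⊔ pV, N g z ∈ W ⊔ pV := by
    intro g z hz
    obtain ⟨w, hw, y, hy, rfl⟩ := Submodule.mem_sup.mp hz
    rw [map_add]
    refine Submodule.add_mem _ (Submodule.mem_sup_left ?_) (Submodule.mem_sup_right (hpVstab _ y hy))
    show (ρY g - 1) w ∈ W
    rw [LinearMap.sub_apply, Module.End.one_apply]
    exact W.sub_mem (hWY g w hw) hw
  -- the augmentation submodule
  let S' : Finset D := (Set.toFinite S).toFinset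
  have hS' : ∀ g, g ∈ S' ↔ g ∈ S := fun g => Set.Finite.mem_toFinset _
  set IX : Submodule O V := S'.sup (fun g => LinearMap.range (ρX g - 1)) with hIX
  have hIXY : S'.sup (fun g => LinearMap.range (N g)) = IX := by
    apply Finset.sup_congr rfl
    intro g hg
    exact hrange g ((hS' g).mp hg)
  have hXcomm : ∀ d e, Commute (ρX d) (ρX e) := by
    intro d e
    show ρX d * ρX e = ρX e * ρX d
    rw [← map_mul, ← map_mul, mul_comm]
  have hIXstab : ∀ d, ∀ z ∈ IX, ρX d z ∈ IX := by
    intro d
    have : IX ≤ IX.comap (ρX d) := by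
      apply Finset.sup_le
      rintro g hg _ ⟨w, rfl⟩
      rw [Submodule.mem_comap]
      have hle : LinearMap.range (ρX g - 1) ≤ IX :=
        Finset.le_sup (f := fun g => LinearMap.range (ρX g - 1)) hg
      have hmem : (ρX g - 1) (ρX d w) ∈ IX := hle ⟨ρX d w, rfl⟩
      have e1 : ρX d ((ρX g - 1) w) = (ρX g - 1) (ρX d w) := by
        have := congrArg (fun f : V →ₗ[O] V => f w) (hXcomm d g).eq
        simp only [Module.End.mul_apply] at this
        simp only [LinearMap.sub_apply, Module.End.one_apply, map_sub, this]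
      rw [e1]
      exact hmem
    exact fun z hz => this hz
  have haug : ∀ d : D, ∀ v : V, (ρX d - 1) v ∈ IX := by
    intro d
    have hd : d ∈ Subgroup.closure S := by rw [hS]; exact Subgroup.mem_top d
    induction hd using Subgroup.closure_induction with
    | mem g hg =>
      intro v
      have hle : LinearMap.range (ρX g - 1) ≤ IX :=
        Finset.le_sup (f := fun g => LinearMap.range (ρX g - 1)) ((hS' g).mpr hg)
      exact hle ⟨v, rfl⟩
    | one =>
      intro v
      rw [map_one, sub_self, LinearMap.zero_apply]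
      exact IX.zero_mem
    | mul d e _ _ hd he =>
      intro v
      have : (ρX (d * e) - 1) v = ρX d ((ρX e - 1) v) + (ρX d - 1) v := by
        simp only [map_mul, LinearMap.sub_apply, Module.End.mul_apply, Module.End.one_apply, map_sub]
        abel
      rw [this]
      exact IX.add_mem (hIXstab d _ (he v)) (hd v)
    | inv d _ hd =>
      intro v
      have : (ρX d⁻¹ - 1) v = - ((ρX d - 1) (ρX d⁻¹ v)) := by
        have h1 : ρX d (ρX d⁻¹ v) = v := by
          rw [← Module.End.mul_apply, ← map_mul, mul_inv_cancel, map_one, Module.End.one_apply]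
        simp only [LinearMap.sub_apply, Module.End.one_apply, h1]
        abel
      rw [this]
      exact IX.neg_mem (hd _)
  have hstart : ⊤ ≤ (W ⊔ pV) ⊔ S'.sup (fun g => LinearMap.range (N g)) := by
    rw [hIXY, ← hsp, Submodule.span_le]
    rintro _ ⟨z, rfl⟩
    have hbW : b z.2 ∈ W := by
      apply Submodule.subset_span
      exact ⟨(1, z.2), by simp only [map_one, Module.End.one_apply]⟩
    have : ρX z.1 (b z.2) = b z.2 + (ρX z.1 - 1) (b z.2) := by
      simp only [LinearMap.sub_apply, Module.End.one_apply]
      abel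
    simp only [SetLike.mem_coe]
    rw [this]
    exact Submodule.add_mem _ (Submodule.mem_sup_left (Submodule.mem_sup_left hbW))
      (Submodule.mem_sup_right (haug z.1 _))
  have hWp : ⊤ ≤ W ⊔ pV :=
    top_le_of_nilpotent_family N (p ^ a) hNcomm pV hnil S' (W ⊔ pV) le_sup_right hZstab hstart
  have : Module.Finite O V := Module.Finite.of_basis B
  have hWtop : (⊤ : Submodule O V) ≤ W := by
    apply Submodule.le_of_le_smul_of_le_jacobson_bot (I := Ideal.span {(p : O)})
      Module.Finite.fg_top
    · rw [Ideal.span_le]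
      intro x hx
      rw [Set.mem_singleton_iff.mp hx]
      exact hpJ
    · exact hWp
  have hspY : Submodule.span O (Set.range fun z : D × ι => ρY z.1 (b z.2)) = ⊤ :=
    top_le_iff.mp hWtop
  refine ⟨?_, hspY⟩
  apply linearIndependent_of_top_le_span_of_card_eq_finrank hWtop
  rw [Module.finrank_eq_card_basis B]


end RangeEq

end Fermat.Agent.S59.H525
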