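/-
helper525 — S59, cell TW (TW-LGC / TW-PATCH): the "two-structure" lemma.

`E` is a commutative ring acting on `M`; `x y : E` with `x ^ (p^n) = 1`, `y ^ (p^n') = 1`,
`(y - x) * (y * x - 1) = 0`  (pointwise: `y = x` or `y = x⁻¹`, any mixture).  If `M` is "free along x"
(only the two consequences `F1`, `F2` are used), then

* `(y - 1) • M = (x - 1) • M`      (`range_sub_one_iff`),
* `y ^ (p^n) = 1` on `M`           (`pow_smul_eq_self`).

Mathlib only.
-/
import Mathlib

namespace Fermat.Agent.S59.H525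

section Core

variable {E M : Type*} [CommRing E] [AddCommGroup M] [Module E M]

/-- binomial expansion up to order one. -/
theorem one_add_pow_exists (N : E) (k : ℕ) :
    ∃ g : E, (1 + N) ^ k = 1 + (k : E) * N + N ^ 2 * g := by
  induction k with
  | zero => exact ⟨0, by simp⟩
  | succ k ih =>
    obtain ⟨g, hg⟩ := ih
    refine ⟨(k : E) + g + g * N, ?_⟩
    rw [pow_succ, hg]
    push_cast
    ring

/-- `F1` iterated: divisibility by `p ^ k` modulo the range of `x - 1`. -/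
theorem range_of_pow_smul {p : ℕ} {x : E}
    (F1 : ∀ m : M, (∃ m' : M, p • m = (x - 1) • m') → ∃ m' : M, m = (x - 1) • m')
    (k : ℕ) (m : M) (h : ∃ m' : M, (p ^ k) • m = (x - 1) • m') : ∃ m' : M, m = (x - 1) • m' := by
  induction k generalizing m with
  | zero => simpa using h
  | succ k ih =>
    apply ih
    apply F1
    obtain ⟨m', hm'⟩ := h
    refine ⟨m', ?_⟩
    rw [← hm', pow_succ, mul_comm, mul_smul]

/-- `x⁻¹ = x ^ (q - 1)`. -/
theorem mul_pow_pred_eq_one {q : ℕ} (hq : 0 < q) {x : E} (hx : x ^ q = 1) : x * x ^ (q - 1) = 1 := by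
  rw [← pow_succ', Nat.sub_add_cancel hq, hx]

/-- Step 1: `(y - 1) M ⊆ (x - 1) M`. -/
theorem step_one {p n n' : ℕ} (hp : 0 < p) {x y : E}
    (hx : x ^ (p ^ n) = 1) (hy : y ^ (p ^ n') = 1) (hb : (y - x) * (y * x - 1) = 0)
    (F1 : ∀ m : M, (∃ m' : M, p • m = (x - 1) • m') → ∃ m' : M, m = (x - 1) • m')
    (m : M) : ∃ m' : M, (y - 1) • m = (x - 1) • m' := by
  have hq : 0 < p ^ n := pow_pos hp n
  have hxi := mul_pow_pred_eq_one hq hx
  -- (y - 1)^2 = (x - 1) * c₁
  have h1 : (y - 1) ^ 2 = (x - 1) * ((x - 1) * y * x ^ (p ^ n - 1)) := by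
    have e1 : (y - 1) ^ 2 * x = (y - x) * (y * x - 1) + y * (x - 1) ^ 2 := by ring
    calc (y - 1) ^ 2 = ((y - 1) ^ 2 * x) * x ^ (p ^ n - 1) := by rw [mul_assoc, hxi, mul_one]
      _ = (x - 1) * ((x - 1) * y * x ^ (p ^ n - 1)) := by rw [e1, hb]; ring
  obtain ⟨g, hg⟩ := one_add_pow_exists (y - 1) (p ^ n')
  have h2 : ((p ^ n' : ℕ) : E) * (y - 1) = (x - 1) * (-((x - 1) * y * x ^ (p ^ n - 1)) * g) := by
    have : (1 + (y - 1)) ^ (p ^ n') = 1 := by rw [← hy]; ring
    rw [this, h1] at hg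
    linear_combination -hg
  apply range_of_pow_smul F1 n'
  refine ⟨(-((x - 1) * y * x ^ (p ^ n - 1)) * g) • m, ?_⟩
  rw [← mul_smul, ← h2, mul_smul, Nat.cast_smul_eq_nsmul]

/-- `x + 1` is invertible when `2` is and `x` has odd order. -/
theorem exists_add_one_mul_eq_one {q : ℕ} (hodd : Odd q) {x : E} (hx : x ^ q = 1)
    (h2 : IsUnit (2 : E)) : ∃ g : E, (x + 1) * g = 1 := by
  obtain ⟨h, hh⟩ := Odd.add_dvd_pow_add_pow x 1 hodd
  obtain ⟨u, hu⟩ := h2
  refine ⟨h * ↑u⁻¹, ?_⟩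
  rw [← mul_assoc, ← hh, hx, one_pow]
  have : (1 : E) + 1 = u := by rw [hu]; norm_num
  rw [this]
  exact Units.mul_inv u

/-- on the intersection of the two ranges, `x` acts trivially. -/
theorem smul_eq_self_of_sq {q : ℕ} (hodd : Odd q) {x : E} (hx : x ^ q = 1) (z : M)
    (h : (x * x) • z = z) : x • z = z := by
  obtain ⟨k, hk⟩ := hodd
  have h1 : ∀ j : ℕ, ((x * x) ^ j) • z = z := by
    intro j
    induction j with
    | zero => simp
    | succ j ih => rw [pow_succ, mul_smul, h, ih]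
  have h2 : x = (x * x) ^ (k + 1) := by
    have : (x * x) ^ (k + 1) = x ^ q * x := by rw [hk]; ring
    rw [this, hx, one_mul]
  calc x • z = ((x * x) ^ (k + 1)) • z := by rw [← h2]
    _ = z := h1 _

/-- Step 2b: the two ranges meet in `0`. -/
theorem step_two_inter {p n n' : ℕ} (hp : 0 < p) (hodd : Odd (p ^ n)) {x y : E}
    (hx : x ^ (p ^ n) = 1) (hy : y ^ (p ^ n') = 1) (hb : (y - x) * (y * x - 1) = 0)
    (F1 : ∀ m : M, (∃ m' : M, p • m = (x - 1) • m') → ∃ m' : M, m = (x - 1) • m')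
    (F2 : ∀ m : M, x • m = m → ∃ m' : M, m = (∑ j ∈ Finset.range (p ^ n), x ^ j) • m')
    (a b : M) (hab : (y * x - 1) • a = (y - x) • b) : (y * x - 1) • a = 0 := by
  set z := (y * x - 1) • a with hz
  have hz1 : (y - x) • z = 0 := by rw [hz, ← mul_smul, hb, zero_smul]
  have hz2 : (y * x - 1) • z = 0 := by rw [hab, ← mul_smul, mul_comm, hb, zero_smul]
  have hyz : y • z = x • z := by
    have := hz1
    rw [sub_smul, sub_eq_zero] at this
    exact this
  have hxxz : (x * x) • z = z := by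
    have := hz2
    rw [sub_smul, one_smul, sub_eq_zero] at this
    rw [mul_smul, ← hyz, ← mul_smul, mul_comm]
    exact this
  have hxz : x • z = z := smul_eq_self_of_sq hodd hx z hxxz
  obtain ⟨m', hm'⟩ := F2 z hxz
  -- z is in the range of x - 1
  have hzR : ∃ w : M, z = (x - 1) • w := by
    obtain ⟨w, hw⟩ := step_one (M := M) hp hx hy hb F1 (x • a)
    refine ⟨w + a, ?_⟩
    rw [smul_add, ← hw, hz, ← mul_smul, ← add_smul]
    congr 1
    ring
  -- N_x = q + (x - 1) * c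
  obtain ⟨c, hc⟩ : ∃ c : E, (∑ j ∈ Finset.range (p ^ n), x ^ j) = ((p ^ n : ℕ) : E) + (x - 1) * c := by
    generalize p ^ n = q
    induction q with
    | zero => exact ⟨0, by simp⟩
    | succ q ih =>
      obtain ⟨c, hc⟩ := ih
      obtain ⟨d, hd⟩ := sub_dvd_pow_sub_pow x 1 q
      refine ⟨c + d, ?_⟩
      rw [Finset.sum_range_succ, hc]
      push_cast
      rw [one_pow] at hd
      linear_combination hd
  -- q • m' is in the range of x - 1, hence so is m'
  have hm'R : ∃ w : M, m' = (x - 1) • w := by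
    apply range_of_pow_smul F1 n
    obtain ⟨w, hw⟩ := hzR
    refine ⟨w - c • m', ?_⟩
    rw [smul_sub, ← hw, hm', hc, add_smul, ← mul_smul, Nat.cast_smul_eq_nsmul]
    abel
  obtain ⟨w, hw⟩ := hm'R
  rw [hm', hw, ← mul_smul, geom_sum_mul, hx, sub_self, zero_smul]

/-- Step 2a: `(x - 1) M ⊆ (y x - 1) M + (y - x) M`. -/
theorem step_two_sum {q : ℕ} (hodd : Odd q) {x y : E} (hx : x ^ q = 1) (h2 : IsUnit (2 : E))
    (m : M) : ∃ a b : M, (x - 1) • m = (y * x - 1) • a + (y - x) • b := by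
  obtain ⟨g, hg⟩ := exists_add_one_mul_eq_one hodd hx h2
  refine ⟨g • m, (-(x * g)) • m, ?_⟩
  rw [← mul_smul, ← mul_smul, ← add_smul]
  congr 1
  linear_combination (-(x - 1)) * hg

/-- Steps 1–3: the ranges of `y - 1` and `x - 1` on `M` coincide. -/
theorem range_sub_one_iff {p n n' : ℕ} (hp : 0 < p) (hodd : Odd p) {x y : E}
    (hx : x ^ (p ^ n) = 1) (hy : y ^ (p ^ n') = 1) (hb : (y - x) * (y * x - 1) = 0)
    (h2 : IsUnit (2 : E))
    (F1 : ∀ m : M, (∃ m' : M, p • m = (x - 1) • m') → ∃ m' : M, m = (x - 1) • m')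
    (F2 : ∀ m : M, x • m = m → ∃ m' : M, m = (∑ j ∈ Finset.range (p ^ n), x ^ j) • m')
    (z : M) : (∃ m : M, z = (y - 1) • m) ↔ ∃ m : M, z = (x - 1) • m := by
  have hq : 0 < p ^ n := pow_pos hp n
  have hq' : 0 < p ^ n' := pow_pos hp n'
  have hoddq : Odd (p ^ n) := hodd.pow
  have hxi := mul_pow_pred_eq_one hq hx
  have hyi := mul_pow_pred_eq_one hq' hy
  constructor
  · rintro ⟨m, rfl⟩
    exact step_one hp hx hy hb F1 m
  · rintro ⟨m, rfl⟩
    -- ranges of y x - 1 and y - x are inside the range of x - 1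
    have hR1 : ∀ a : M, ∃ w : M, (y * x - 1) • a = (x - 1) • w := by
      intro a
      obtain ⟨w, hw⟩ := step_one (M := M) hp hx hy hb F1 (x • a)
      refine ⟨w + a, ?_⟩
      rw [smul_add, ← hw, ← mul_smul, ← add_smul]
      congr 1
      ring
    have hR2 : ∀ b : M, ∃ w : M, (y - x) • b = (x - 1) • w := by
      intro b
      obtain ⟨w, hw⟩ := step_one (M := M) hp hx hy hb F1 b
      refine ⟨w - b, ?_⟩
      rw [smul_sub, ← hw, ← sub_smul]
      congr 1
      ring
    obtain ⟨a, b, hab⟩ := step_two_sum (y := y) hoddq hx h2 m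
    -- z' = z₁ - z₂ is in the range of x - 1
    obtain ⟨w1, hw1⟩ := hR1 a
    obtain ⟨w2, hw2⟩ := hR2 b
    obtain ⟨g, hg⟩ := exists_add_one_mul_eq_one hoddq hx h2
    -- choose m₀ with (V - U) m₀ = z₁ - z₂
    have hring : (y * x - 1) * (y ^ (p ^ n' - 1) * x * g)
        - (y - x) * (x ^ (p ^ n - 1) * (y ^ (p ^ n' - 1) * x * g)) = x - 1 := by
      linear_combination (x * g * (x - x ^ (p ^ n - 1))) * hyi
        + (y ^ (p ^ n' - 1) * x * g - g) * hxi + (x - 1) * hg
    obtain ⟨m₀, hm₀⟩ : ∃ m₀ : M, m₀ = (y ^ (p ^ n' - 1) * x * g) • (w1 - w2) := ⟨_, rfl⟩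
    have hVU : (y * x - 1) • m₀ - (y - x) • (x ^ (p ^ n - 1) • m₀)
        = (y * x - 1) • a - (y - x) • b := by
      have e1 : (y * x - 1) • m₀ - (y - x) • (x ^ (p ^ n - 1) • m₀)
          = ((y * x - 1) * (y ^ (p ^ n' - 1) * x * g)
              - (y - x) * (x ^ (p ^ n - 1) * (y ^ (p ^ n' - 1) * x * g))) • (w1 - w2) := by
        rw [hm₀]
        module
      rw [e1, hring, hw1, hw2, smul_sub]
    -- directness
    have hdir : (y * x - 1) • (m₀ - a) = 0 := by
      apply step_two_inter hp hoddq hx hy hb F1 F2 (m₀ - a) (x ^ (p ^ n - 1) • m₀ - b)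
      rw [smul_sub, smul_sub]
      have h := hVU
      rw [sub_eq_sub_iff_add_eq_add] at h ⊢
      rw [h, add_comm]
    have h1 : (y * x - 1) • m₀ = (y * x - 1) • a := by
      rw [smul_sub, sub_eq_zero] at hdir
      exact hdir
    have h2' : (y - x) • (x ^ (p ^ n - 1) • m₀) = (y - x) • b := by
      rw [h1] at hVU
      exact sub_right_injective hVU
    -- (y^2 - 1) m₀ = z
    have hsq : y ^ 2 - 1 = (y * x - 1) + (y - x) * x ^ (p ^ n - 1) := by
      linear_combination (x ^ (p ^ n - 1)) * hb - (y ^ 2 - y * x) * hxi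
    refine ⟨(y + 1) • m₀, ?_⟩
    calc (x - 1) • m = (y * x - 1) • a + (y - x) • b := hab
      _ = (y * x - 1) • m₀ + (y - x) • (x ^ (p ^ n - 1) • m₀) := by rw [h1, h2']
      _ = ((y * x - 1) + (y - x) * x ^ (p ^ n - 1)) • m₀ := by rw [add_smul, mul_smul]
      _ = (y ^ 2 - 1) • m₀ := by rw [hsq]
      _ = (y - 1) • (y + 1) • m₀ := by
        rw [← mul_smul]
        congr 1
        ring

/-- Step 4: `y ^ (p ^ n) = 1` on `M` (if `M` has no `p`-torsion). -/
theorem pow_smul_eq_self {p n n' : ℕ} (hp : 0 < p) {x y : E}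
    (hx : x ^ (p ^ n) = 1) (hy : y ^ (p ^ n') = 1) (hb : (y - x) * (y * x - 1) = 0)
    (F0 : ∀ m : M, p • m = 0 → m = 0) (m : M) : y ^ (p ^ n) • m = m := by
  have hq : 0 < p ^ n := pow_pos hp n
  have hxi := mul_pow_pred_eq_one hq hx
  -- (y^q - 1)^2 = 0
  have hU : (y * x ^ (p ^ n - 1)) ^ (p ^ n) = y ^ (p ^ n) := by
    rw [mul_pow, ← pow_mul, mul_comm (p ^ n - 1), pow_mul, hx, one_pow, mul_one]
  have hV : (y * x) ^ (p ^ n) = y ^ (p ^ n) := by
    rw [mul_pow, hx, mul_one]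
  obtain ⟨sU, hsU⟩ := sub_dvd_pow_sub_pow (y * x ^ (p ^ n - 1)) 1 (p ^ n)
  obtain ⟨sV, hsV⟩ := sub_dvd_pow_sub_pow (y * x) 1 (p ^ n)
  rw [one_pow, hU] at hsU
  rw [one_pow, hV] at hsV
  have hsq : (y ^ (p ^ n) - 1) ^ 2 = 0 := by
    have e : (y * x ^ (p ^ n - 1) - 1) * (y * x - 1) = 0 := by
      linear_combination (x ^ (p ^ n - 1)) * hb + (y * x - 1) * hxi
    calc (y ^ (p ^ n) - 1) ^ 2 = (y ^ (p ^ n) - 1) * (y ^ (p ^ n) - 1) := sq _
      _ = ((y * x ^ (p ^ n - 1) - 1) * (y * x - 1)) * (sU * sV) := by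
        nth_rewrite 1 [hsU]
        rw [hsV]
        ring
      _ = 0 := by rw [e, zero_mul]
  -- y^(p^(n + n')) = 1
  have hyy : (y ^ (p ^ n)) ^ (p ^ n') = 1 := by
    rw [← pow_mul, mul_comm, pow_mul, hy, one_pow]
  obtain ⟨g, hg⟩ := one_add_pow_exists (y ^ (p ^ n) - 1) (p ^ n')
  have h3 : ((p ^ n' : ℕ) : E) * (y ^ (p ^ n) - 1) = 0 := by
    have : (1 + (y ^ (p ^ n) - 1)) ^ (p ^ n') = 1 := by rw [← hyy]; ring
    rw [this, hsq] at hg
    linear_combination -hg
  have h4 : ∀ k : ℕ, ∀ w : M, (p ^ k) • w = 0 → w = 0 := by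
    intro k
    induction k with
    | zero => intro w hw; simpa using hw
    | succ k ih =>
      intro w hw
      apply ih
      apply F0
      rw [← hw, pow_succ, mul_comm, mul_smul]
  have h5 : (y ^ (p ^ n) - 1) • m = 0 := by
    apply h4 n'
    rw [← Nat.cast_smul_eq_nsmul E, ← mul_smul, h3, zero_smul]
  rw [sub_smul, one_smul, sub_eq_zero] at h5
  exact h5

end Core

section OnModule

variable {E M : Type*} [CommRing E] [AddCommGroup M] [Module E M]

/-- **Two-structure lemma, range form**, hypotheses only on `M`: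
`x y : E` act on `M` with `x ^ (p^n) = 1`, `y ^ (p^n') = 1`, `(y - x)(y x - 1) = 0` on `M`
(`p` odd, `2` invertible), `M / (x - 1) M` has no `p`-torsion (`F1`) and
`ker (x - 1) = (1 + x + ⋯ + x^(p^n - 1)) M` (`F2`).  Then `(y - 1) M = (x - 1) M`. -/
theorem range_sub_one_iff_of_smul {p n n' : ℕ} (hp : 0 < p) (hodd : Odd p) {x y : E}
    (hx : ∀ m : M, x ^ (p ^ n) • m = m) (hy : ∀ m : M, y ^ (p ^ n') • m = m)
    (hb : ∀ m : M, ((y - x) * (y * x - 1)) • m = 0)
    (h2 : IsUnit (2 : E))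
    (F1 : ∀ m : M, (∃ m' : M, p • m = (x - 1) • m') → ∃ m' : M, m = (x - 1) • m')
    (F2 : ∀ m : M, x • m = m → ∃ m' : M, m = (∑ j ∈ Finset.range (p ^ n), x ^ j) • m')
    (z : M) : (∃ m : M, z = (y - 1) • m) ↔ ∃ m : M, z = (x - 1) • m := by
  let _ : Module (E ⧸ Module.annihilator E M) M := Module.quotientAnnihilator
  let π : E →+* E ⧸ Module.annihilator E M := Ideal.Quotient.mk _
  have hsm : ∀ (e : E) (m : M), π e • m = e • m := fun _ _ => rfl
  have hπ : ∀ e : E, (∀ m : M, e • m = 0) → π e = 0 := by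
    intro e he
    rw [Ideal.Quotient.eq_zero_iff_mem, Module.mem_annihilator]
    exact he
  have hx' : π x ^ (p ^ n) = 1 := by
    rw [← sub_eq_zero, ← map_pow, ← map_one π, ← map_sub]
    apply hπ
    intro m
    rw [sub_smul, one_smul, hx, sub_self]
  have hy' : π y ^ (p ^ n') = 1 := by
    rw [← sub_eq_zero, ← map_pow, ← map_one π, ← map_sub]
    apply hπ
    intro m
    rw [sub_smul, one_smul, hy, sub_self]
  have hb' : (π y - π x) * (π y * π x - 1) = 0 := by
    rw [← map_one π, ← map_mul, ← map_sub, ← map_sub, ← map_mul]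
    exact hπ _ hb
  have h2' : IsUnit (2 : E ⧸ Module.annihilator E M) := by
    have := h2.map π
    rwa [map_ofNat] at this
  have e1 : ∀ m : M, (π x - 1) • m = (x - 1) • m := by
    intro m
    rw [← map_one π, ← map_sub, hsm]
  have e2 : ∀ m : M, (π y - 1) • m = (y - 1) • m := by
    intro m
    rw [← map_one π, ← map_sub, hsm]
  have e3 : ∀ m : M, (∑ j ∈ Finset.range (p ^ n), π x ^ j) • m
      = (∑ j ∈ Finset.range (p ^ n), x ^ j) • m := by
    intro m
    rw [← hsm, map_sum]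
    simp only [map_pow]
  have key := range_sub_one_iff (E := E ⧸ Module.annihilator E M) (M := M) hp hodd hx' hy' hb' h2'
    (by simpa only [e1] using F1) (by simpa only [e1, e3, hsm] using F2) z
  simpa only [e1, e2] using key

/-- **Two-structure lemma, order form**: under the same relations, if `M` has no `p`-torsion then
`y ^ (p^n) = 1` on `M`. -/
theorem pow_smul_eq_self_of_smul {p n n' : ℕ} (hp : 0 < p) {x y : E}
    (hx : ∀ m : M, x ^ (p ^ n) • m = m) (hy : ∀ m : M, y ^ (p ^ n') • m = m)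
    (hb : ∀ m : M, ((y - x) * (y * x - 1)) • m = 0)
    (F0 : ∀ m : M, p • m = 0 → m = 0) (m : M) : y ^ (p ^ n) • m = m := by
  let _ : Module (E ⧸ Module.annihilator E M) M := Module.quotientAnnihilator
  let π : E →+* E ⧸ Module.annihilator E M := Ideal.Quotient.mk _
  have hsm : ∀ (e : E) (m : M), π e • m = e • m := fun _ _ => rfl
  have hπ : ∀ e : E, (∀ m : M, e • m = 0) → π e = 0 := by
    intro e he
    rw [Ideal.Quotient.eq_zero_iff_mem, Module.mem_annihilator]
    exact he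
  have hx' : π x ^ (p ^ n) = 1 := by
    rw [← sub_eq_zero, ← map_pow, ← map_one π, ← map_sub]
    apply hπ
    intro m
    rw [sub_smul, one_smul, hx, sub_self]
  have hy' : π y ^ (p ^ n') = 1 := by
    rw [← sub_eq_zero, ← map_pow, ← map_one π, ← map_sub]
    apply hπ
    intro m
    rw [sub_smul, one_smul, hy, sub_self]
  have hb' : (π y - π x) * (π y * π x - 1) = 0 := by
    rw [← map_one π, ← map_mul, ← map_sub, ← map_sub, ← map_mul]
    exact hπ _ hb
  have key := pow_smul_eq_self (E := E ⧸ Module.annihilator E M) (M := M) hp hx' hy' hb' F0 m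
  rwa [← map_pow, hsm] at key

end OnModule

end Fermat.Agent.S59.H525
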