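/-
helper525 — S59, cell TW: freeness transfer between two `O[D]`-structures.

* `range_sub_one_eq_of_commute` : two-structure lemma for commuting endomorphisms `X Y`
  (`F0`, `F2`, `F3` form).
* `shift_fixed_eq_norm`, `shift_norm_eq_zero` : `F2`, `F3` for a "shift basis".
* `cosetMap` : `ZMod (orderOf g) × D ⧸ ⟨g⟩ ≃ D` compatible with multiplication by `g`.

Mathlib + `TwoStructure.lean` only.
-/
import Fermat.Agent.S59.H525.TwoStructure

namespace Fermat.Agent.S59.H525

section EndForm

variable {O V : Type*} [CommRing O] [AddCommGroup V] [Module O V]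

open scoped IsMulCommutative in
/-- **Two-structure lemma, endomorphism form.**  `X Y` commuting endomorphisms of `V` with
`X ^ (p^n) = 1`, `Y ^ (p^n') = 1`, `(Y - X)(Y X - 1) = 0`; `V` without `p`-torsion (`F0`),
`ker (X - 1) = N_X V` (`F2`), `ker N_X = (X - 1) V` (`F3`).  Then `(Y - 1) V = (X - 1) V`. -/
theorem range_sub_one_eq_of_commute {p n n' : ℕ} (hp : 0 < p) (hodd : Odd p)
    (X Y : Module.End O V) (hXY : Commute X Y)
    (hX : X ^ (p ^ n) = 1) (hY : Y ^ (p ^ n') = 1) (hb : (Y - X) * (Y * X - 1) = 0)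
    (h2 : IsUnit (2 : O))
    (F0 : ∀ v : V, p • v = 0 → v = 0)
    (F2 : ∀ v : V, X v = v → ∃ v' : V, v = (∑ l ∈ Finset.range (p ^ n), X ^ l) v')
    (F3 : ∀ v : V, (∑ l ∈ Finset.range (p ^ n), X ^ l) v = 0 → ∃ v' : V, v = (X - 1) v') :
    LinearMap.range (Y - 1) = LinearMap.range (X - 1) := by
  have hcomm : ∀ a ∈ ({X, Y} : Set (Module.End O V)), ∀ b ∈ ({X, Y} : Set (Module.End O V)),
      a * b = b * a := by
    intro a ha b hb
    rcases ha with rfl | rfl <;> rcases hb with rfl | rfl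
    · rfl
    · exact hXY.eq
    · exact hXY.eq.symm
    · rfl
  have hmc : IsMulCommutative (Algebra.adjoin O ({X, Y} : Set (Module.End O V))) :=
    Algebra.isMulCommutative_adjoin O hcomm
  let x : Algebra.adjoin O ({X, Y} : Set (Module.End O V)) :=
    ⟨X, Algebra.subset_adjoin (by simp)⟩
  let y : Algebra.adjoin O ({X, Y} : Set (Module.End O V)) :=
    ⟨Y, Algebra.subset_adjoin (by simp)⟩
  have hsm : ∀ (e : Algebra.adjoin O ({X, Y} : Set (Module.End O V))) (v : V),
      e • v = (e : Module.End O V) v := fun _ _ => rfl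
  have hx : x ^ (p ^ n) = 1 := Subtype.ext (by simpa using hX)
  have hy : y ^ (p ^ n') = 1 := Subtype.ext (by simpa using hY)
  have hb' : (y - x) * (y * x - 1) = 0 := Subtype.ext (by simpa using hb)
  have h2' : IsUnit (2 : Algebra.adjoin O ({X, Y} : Set (Module.End O V))) := by
    have := h2.map (algebraMap O (Algebra.adjoin O ({X, Y} : Set (Module.End O V))))
    rwa [map_ofNat] at this
  have hN : ∀ v : V, (∑ j ∈ Finset.range (p ^ n), x ^ j) • v
      = (∑ l ∈ Finset.range (p ^ n), X ^ l) v := by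
    intro v
    rw [hsm]
    congr 1
    simp [x]
  have hx1 : ∀ v : V, (x - 1) • v = (X - 1) v := fun v => by rw [hsm]; rfl
  have hy1 : ∀ v : V, (y - 1) • v = (Y - 1) v := fun v => by rw [hsm]; rfl
  have hXq : ∀ v : V, (X ^ (p ^ n)) v = v := fun v => by rw [hX]; rfl
  have F1' : ∀ m : V, (∃ m' : V, p • m = (x - 1) • m') → ∃ m' : V, m = (x - 1) • m' := by
    rintro m ⟨m', hm'⟩
    have h1 : (∑ l ∈ Finset.range (p ^ n), X ^ l) (p • m) = 0 := by
      rw [hm', hx1, ← Module.End.mul_apply, geom_sum_mul, LinearMap.sub_apply, hXq,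
        Module.End.one_apply, sub_self]
    rw [map_nsmul] at h1
    obtain ⟨v', hv'⟩ := F3 m (F0 _ h1)
    exact ⟨v', by rw [hx1]; exact hv'⟩
  have F2' : ∀ m : V, x • m = m → ∃ m' : V, m = (∑ j ∈ Finset.range (p ^ n), x ^ j) • m' := by
    intro m hm
    obtain ⟨v', hv'⟩ := F2 m hm
    exact ⟨v', by rw [hN]; exact hv'⟩
  ext z
  have key := range_sub_one_iff (M := V) hp hodd hx hy hb' h2' F1' F2' z
  simp only [LinearMap.mem_range]
  constructor
  · rintro ⟨m, rfl⟩
    obtain ⟨m', hm'⟩ := key.mp ⟨m, (hy1 m).symm⟩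
    exact ⟨m', by rw [← hx1]; exact hm'.symm⟩
  · rintro ⟨m, rfl⟩
    obtain ⟨m', hm'⟩ := key.mpr ⟨m, (hx1 m).symm⟩
    exact ⟨m', by rw [← hy1]; exact hm'.symm⟩

end EndForm

section Shift

variable {O V κ : Type*} [CommRing O] [AddCommGroup V] [Module O V]

/-- `X ^ l` on a shift basis. -/
theorem shift_pow_apply {q : ℕ} (B : Module.Basis (ZMod q × κ) O V) (X : V →ₗ[O] V)
    (hX : ∀ j k, X (B (j, k)) = B (j + 1, k)) (l : ℕ) (j : ZMod q) (k : κ) :
    (X ^ l) (B (j, k)) = B (j + (l : ZMod q), k) := by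
  induction l generalizing j with
  | zero => simp
  | succ l ih =>
    rw [pow_succ, Module.End.mul_apply, hX, ih]
    congr 2
    push_cast
    ring

/-- reconstruction identity on a shift basis: `v = ∑_{l < q} X^l P₀ X^(q-l) v` for a linear map `P₀`
(the projection on the slice `j = 0`). -/
theorem shift_reconstruct {q : ℕ} [NeZero q] (B : Module.Basis (ZMod q × κ) O V) (X : V →ₗ[O] V)
    (hX : ∀ j k, X (B (j, k)) = B (j + 1, k)) :
    ∃ P₀ : V →ₗ[O] V, ∀ v : V, v = ∑ l ∈ Finset.range q, (X ^ l) (P₀ ((X ^ (q - l)) v)) := by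
  classical
  -- projection on the slice `j = 0`
  let P₀ : V →ₗ[O] V := B.constr O (fun z : ZMod q × κ => if z.1 = 0 then B (0, z.2) else 0)
  have hP₀ : ∀ j k, P₀ (B (j, k)) = if j = 0 then B (0, k) else 0 := by
    intro j k
    simp only [P₀, Module.Basis.constr_basis]
  -- reconstruction identity
  have hrec : (∑ l ∈ Finset.range q, (X ^ l) ∘ₗ P₀ ∘ₗ (X ^ (q - l))) = LinearMap.id := by
    apply B.ext
    rintro ⟨j, k⟩
    rw [LinearMap.sum_apply, LinearMap.id_apply]
    have : ∀ l ∈ Finset.range q, ((X ^ l) ∘ₗ P₀ ∘ₗ (X ^ (q - l))) (B (j, k))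
        = if l = j.val then B (j, k) else 0 := by
      intro l hl
      have hlq : l < q := Finset.mem_range.mp hl
      rw [LinearMap.comp_apply, LinearMap.comp_apply, shift_pow_apply B X hX, hP₀]
      have hcast : ((q - l : ℕ) : ZMod q) = - (l : ZMod q) := by
        rw [Nat.cast_sub hlq.le, ZMod.natCast_self, zero_sub]
      rw [hcast]
      by_cases h : l = j.val
      · have hj : j + -(l : ZMod q) = 0 := by
          rw [h, ZMod.natCast_zmod_val, add_neg_cancel]
        rw [if_pos hj, if_pos h, shift_pow_apply B X hX, zero_add, h, ZMod.natCast_zmod_val]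
      · have hj : j + -(l : ZMod q) ≠ 0 := by
          intro h0
          apply h
          have : j = (l : ZMod q) := by
            rw [← sub_eq_add_neg, sub_eq_zero] at h0
            exact h0
          rw [this, ZMod.val_natCast, Nat.mod_eq_of_lt hlq]
        rw [if_neg hj, if_neg h, map_zero]
    rw [Finset.sum_congr rfl this, Finset.sum_ite_eq']
    rw [if_pos (Finset.mem_range.mpr (ZMod.val_lt j))]
  refine ⟨P₀, fun v => ?_⟩
  have := congrArg (fun f : V →ₗ[O] V => f v) hrec
  simp only [LinearMap.sum_apply, LinearMap.comp_apply, LinearMap.id_apply] at this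
  exact this.symm

/-- `X ^ q = 1` on a shift basis. -/
theorem shift_pow_eq_one {q : ℕ} (B : Module.Basis (ZMod q × κ) O V) (X : V →ₗ[O] V)
    (hX : ∀ j k, X (B (j, k)) = B (j + 1, k)) : X ^ q = 1 := by
  apply B.ext
  rintro ⟨j, k⟩
  rw [shift_pow_apply B X hX, ZMod.natCast_self, add_zero, Module.End.one_apply]

/-- `F2` for a shift basis: `X`-fixed vectors are norms. -/
theorem shift_fixed_eq_norm {q : ℕ} [NeZero q] (B : Module.Basis (ZMod q × κ) O V) (X : V →ₗ[O] V)
    (hX : ∀ j k, X (B (j, k)) = B (j + 1, k)) (v : V) (hv : X v = v) :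
    ∃ v' : V, v = (∑ l ∈ Finset.range q, X ^ l) v' := by
  obtain ⟨P₀, hrec⟩ := shift_reconstruct B X hX
  have hfix : ∀ l : ℕ, (X ^ l) v = v := by
    intro l
    induction l with
    | zero => simp
    | succ l ih => rw [pow_succ, Module.End.mul_apply, hv, ih]
  refine ⟨P₀ v, ?_⟩
  have := hrec v
  simp only [hfix] at this
  rw [LinearMap.sum_apply]
  exact this

/-- `F3` for a shift basis: the kernel of the norm is the range of `X - 1`. -/
theorem shift_norm_eq_zero {q : ℕ} [NeZero q] (B : Module.Basis (ZMod q × κ) O V) (X : V →ₗ[O] V)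
    (hX : ∀ j k, X (B (j, k)) = B (j + 1, k)) (v : V)
    (hv : (∑ l ∈ Finset.range q, X ^ l) v = 0) : ∃ v' : V, v = (X - 1) v' := by
  obtain ⟨P₀, hrec⟩ := shift_reconstruct B X hX
  have hXq := shift_pow_eq_one B X hX
  -- the sum of the slices vanishes
  have hsum : ∑ l ∈ Finset.range q, P₀ ((X ^ (q - l)) v) = 0 := by
    have e1 : ∑ l ∈ Finset.range q, X ^ (q - l) = X * ∑ l ∈ Finset.range q, X ^ l := by
      rw [Finset.mul_sum, ← Finset.sum_range_reflect]
      apply Finset.sum_congr rfl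
      intro l hl
      have hlq : l < q := Finset.mem_range.mp hl
      rw [← pow_succ']
      congr 1
      omega
    have e2 : ∑ l ∈ Finset.range q, P₀ ((X ^ (q - l)) v)
        = P₀ ((∑ l ∈ Finset.range q, X ^ (q - l)) v) := by
      rw [LinearMap.sum_apply, map_sum]
    rw [e2, e1, Module.End.mul_apply, hv, map_zero, map_zero]
  refine ⟨∑ l ∈ Finset.range q, (∑ i ∈ Finset.range l, X ^ i) (P₀ ((X ^ (q - l)) v)), ?_⟩
  rw [map_sum]
  have e3 : ∀ l ∈ Finset.range q,
      (X - 1) ((∑ i ∈ Finset.range l, X ^ i) (P₀ ((X ^ (q - l)) v)))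
        = (X ^ l) (P₀ ((X ^ (q - l)) v)) - P₀ ((X ^ (q - l)) v) := by
    intro l _
    rw [← Module.End.mul_apply, mul_geom_sum, LinearMap.sub_apply, Module.End.one_apply]
  rw [Finset.sum_congr rfl e3, Finset.sum_sub_distrib, hsum, sub_zero]
  exact hrec v

end Shift

section Coset

variable {D : Type*} [CommGroup D]

/-- the map `(j, c) ↦ g ^ j * (representative of c)`. -/
noncomputable def cosetMap (g : D) (z : ZMod (orderOf g) × (D ⧸ Subgroup.zpowers g)) : D :=
  g ^ z.1.val * z.2.out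

theorem cosetMap_mk (g : D) (z : ZMod (orderOf g) × (D ⧸ Subgroup.zpowers g)) :
    (QuotientGroup.mk (cosetMap g z) : D ⧸ Subgroup.zpowers g) = z.2 := by
  unfold cosetMap
  rw [QuotientGroup.mk_mul, QuotientGroup.out_eq', mul_eq_right, QuotientGroup.eq_one_iff]
  exact Subgroup.pow_mem _ (Subgroup.mem_zpowers g) _

theorem cosetMap_bijective [Finite D] (g : D) : Function.Bijective (cosetMap g) := by
  classical
  have : NeZero (orderOf g) := ⟨(orderOf_pos g).ne'⟩
  constructor
  · rintro ⟨j, c⟩ ⟨j', c'⟩ h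
    have hc : c = c' := by
      have := congrArg (QuotientGroup.mk : D → D ⧸ Subgroup.zpowers g) h
      rwa [cosetMap_mk, cosetMap_mk] at this
    subst hc
    have hj : g ^ j.val = g ^ j'.val := by
      unfold cosetMap at h
      exact mul_right_cancel h
    rw [pow_eq_pow_iff_modEq] at hj
    have : j.val = j'.val := by
      have h1 := Nat.mod_eq_of_lt (ZMod.val_lt j)
      have h2 := Nat.mod_eq_of_lt (ZMod.val_lt j')
      rw [← h1, ← h2]
      exact hj
    rw [ZMod.val_injective _ this]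
  · intro d
    have hmem : d * ((QuotientGroup.mk d : D ⧸ Subgroup.zpowers g).out)⁻¹ ∈ Subgroup.zpowers g := by
      rw [← QuotientGroup.eq_one_iff, QuotientGroup.mk_mul, QuotientGroup.mk_inv,
        QuotientGroup.out_eq', mul_inv_cancel]
    rw [mem_zpowers_iff_mem_range_orderOf] at hmem
    obtain ⟨k, hk, hgk⟩ := Finset.mem_image.mp hmem
    rw [Finset.mem_range] at hk
    refine ⟨((k : ZMod (orderOf g)), QuotientGroup.mk d), ?_⟩
    unfold cosetMap
    simp only
    rw [ZMod.val_natCast, Nat.mod_eq_of_lt hk, hgk, inv_mul_cancel_right]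

theorem cosetMap_shift [Finite D] (g : D) (j : ZMod (orderOf g)) (c : D ⧸ Subgroup.zpowers g) :
    cosetMap g (j + 1, c) = g * cosetMap g (j, c) := by
  have : NeZero (orderOf g) := ⟨(orderOf_pos g).ne'⟩
  unfold cosetMap
  simp only
  rw [← mul_assoc, ← pow_succ']
  congr 1
  rw [pow_eq_pow_iff_modEq]
  rcases Nat.lt_or_ge 1 (orderOf g) with h1 | h1
  · have : Fact (1 < orderOf g) := ⟨h1⟩
    rw [ZMod.val_add, ZMod.val_one]
    exact Nat.mod_modEq _ _
  · have h1' : orderOf g = 1 := le_antisymm h1 (orderOf_pos g)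
    have h : ∀ a b : ℕ, a ≡ b [MOD orderOf g] := fun a b => by
      rw [h1']
      exact Nat.modEq_one
    exact h _ _

end Coset

end Fermat.Agent.S59.H525
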