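/-
helper525 — S59, cell TW: basis transfer between two commuting `O[D]`-structures (`D` a finite
commutative `p`-group).

`basis_transfer` : if `(ρX d (b i))` is an `O`-basis of `V` (freeness over `O[D]` via `ρX`) and, on a
generating set `S` of `D`, `(ρY g - ρX g)(ρY g ρX g - 1) = 0`, then `(ρY d (b i))` is an `O`-basis of `V`
as well, and `(ρY g - 1) V = (ρX g - 1) V` for `g ∈ S`.

Mathlib + `TwoStructure.lean`, `FreeTransfer.lean` only.
-/
import Fermat.Agent.S59.H525.FreeTransfer

namespace Fermat.Agent.S59.H525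

section Nakayama

variable {O V : Type*} [CommRing O] [AddCommGroup V] [Module O V]

/-- one nilpotent operator: `V = Z + N V`, `Z` stable under `N`, `N ^ P V ⊆ Z`  ⟹  `V = Z`. -/
theorem top_le_of_nilpotent_step (Z : Submodule O V) (N : V →ₗ[O] V) (P : ℕ)
    (hstab : ∀ z ∈ Z, N z ∈ Z) (hsum : ⊤ ≤ Z ⊔ LinearMap.range N)
    (hnil : ∀ v, (N ^ P) v ∈ Z) : ⊤ ≤ Z := by
  have hstab' : ∀ m : ℕ, ∀ z ∈ Z, (N ^ m) z ∈ Z := by
    intro m
    induction m with
    | zero => intro z hz; simpa using hz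
    | succ m ih =>
      intro z hz
      rw [pow_succ, Module.End.mul_apply]
      exact ih _ (hstab z hz)
  have key : ∀ m : ℕ, ∀ v : V, ∃ z ∈ Z, ∃ w, v = z + (N ^ m) w := by
    intro m
    induction m with
    | zero => intro v; exact ⟨0, Z.zero_mem, v, by simp⟩
    | succ m ih =>
      intro v
      obtain ⟨z, hz, w, rfl⟩ := ih v
      have hw : w ∈ Z ⊔ LinearMap.range N := hsum Submodule.mem_top
      obtain ⟨z', hz', y, ⟨w', rfl⟩, rfl⟩ := Submodule.mem_sup.mp hw
      refine ⟨z + (N ^ m) z', Z.add_mem hz (hstab' m z' hz'), w', ?_⟩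
      rw [map_add, pow_succ, Module.End.mul_apply, add_assoc]
  intro v _
  obtain ⟨z, hz, w, rfl⟩ := key P v
  exact Z.add_mem hz (hnil w)

/-- `(Y - 1) ^ (p^a) V ⊆ p V` when `Y ^ (p^a) = 1`, `p` odd. -/
theorem sub_one_pow_mem {p : ℕ} (hp : p.Prime) (hodd : Odd p) (Y : Module.End O V) (a : ℕ)
    (hY : Y ^ (p ^ a) = 1) (v : V) :
    ((Y - 1) ^ (p ^ a)) v ∈ (Ideal.span {(p : O)}) • (⊤ : Submodule O V) := by
  obtain ⟨r, hr⟩ := Commute.exists_add_pow_prime_pow_eq hp (Commute.neg_one_right Y) a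
  have h1 : (Y - 1) ^ (p ^ a) = (p : Module.End O V) * (Y * (-1) * r) := by
    rw [sub_eq_add_neg, hr, hY, (hodd.pow).neg_one_pow, add_neg_cancel, zero_add]
    simp only [mul_assoc]
  rw [h1, Module.End.mul_apply, Module.End.natCast_apply, ← Nat.cast_smul_eq_nsmul O]
  exact Submodule.smul_mem_smul (Ideal.mem_span_singleton_self _) Submodule.mem_top

/-- several commuting operators `N g`, `g ∈ s`. -/
theorem top_le_of_nilpotent_family {ι : Type*} [DecidableEq ι] (N : ι → (V →ₗ[O] V)) (P : ℕ)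
    (hcomm : ∀ g h, Commute (N g) (N h))
    (pV : Submodule O V) (hnil : ∀ g v, ((N g) ^ P) v ∈ pV)
    (s : Finset ι) :
    ∀ Z : Submodule O V, pV ≤ Z → (∀ g, ∀ z ∈ Z, N g z ∈ Z) →
      ⊤ ≤ Z ⊔ s.sup (fun g => LinearMap.range (N g)) → ⊤ ≤ Z := by
  induction s using Finset.induction_on with
  | empty =>
    intro Z _ _ h
    simpa using h
  | insert g s _ ih =>
    intro Z hZ hstab h
    rw [Finset.sup_insert, ← sup_assoc] at h
    have h1 : ⊤ ≤ Z ⊔ LinearMap.range (N g) := by
      apply ih (Z ⊔ LinearMap.range (N g)) (le_trans hZ le_sup_left) _ h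
      intro g' z hz
      obtain ⟨z', hz', y, ⟨w, rfl⟩, rfl⟩ := Submodule.mem_sup.mp hz
      rw [map_add]
      refine Submodule.add_mem _ (Submodule.mem_sup_left (hstab g' z' hz')) ?_
      apply Submodule.mem_sup_right
      refine ⟨N g' w, ?_⟩
      have := congrArg (fun f : V →ₗ[O] V => f w) (hcomm g g').eq
      simpa using this
    exact top_le_of_nilpotent_step Z (N g) P (hstab g) h1 (fun v => hZ (hnil g v))

end Nakayama

section Main

variable {O V D ι : Type*} [CommRing O] [AddCommGroup V] [Module O V] [CommGroup D]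

/-- `F0`, `F2`, `F3` along `ρ g` for a module which is free over `O[D]` via `ρ`. -/
theorem free_along {p : ℕ} [Finite D] (hpO : ∀ a : O, p • a = 0 → a = 0)
    (ρ : D →* Module.End O V) (B : Module.Basis (D × ι) O V)
    (hB : ∀ (d e : D) (i : ι), ρ d (B (e, i)) = B (d * e, i)) (g : D) :
    (∀ v : V, p • v = 0 → v = 0) ∧
    (∀ v : V, ρ g v = v → ∃ v' : V, v = (∑ l ∈ Finset.range (orderOf g), ρ g ^ l) v') ∧
    (∀ v : V, (∑ l ∈ Finset.range (orderOf g), ρ g ^ l) v = 0 → ∃ v' : V, v = (ρ g - 1) v') := by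
  have : NeZero (orderOf g) := ⟨(orderOf_pos g).ne'⟩
  refine ⟨?_, ?_, ?_⟩
  · intro v hv
    apply B.repr.injective
    rw [map_zero]
    ext z
    apply hpO
    rw [← Finsupp.smul_apply, ← map_nsmul, hv, map_zero, Finsupp.coe_zero, Pi.zero_apply]
  all_goals
    let E₀ : ZMod (orderOf g) × (D ⧸ Subgroup.zpowers g) ≃ D :=
      Equiv.ofBijective (cosetMap g) (cosetMap_bijective g)
    let e : D × ι ≃ ZMod (orderOf g) × ((D ⧸ Subgroup.zpowers g) × ι) :=
      (E₀.symm.prodCongr (Equiv.refl ι)).trans (Equiv.prodAssoc _ _ _)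
    have he : ∀ j c i, e.symm (j, (c, i)) = (cosetMap g (j, c), i) := fun _ _ _ => rfl
    have hshift : ∀ (j : ZMod (orderOf g)) (k : (D ⧸ Subgroup.zpowers g) × ι),
        ρ g ((B.reindex e) (j, k)) = (B.reindex e) (j + 1, k) := by
      rintro j ⟨c, i⟩
      rw [Module.Basis.reindex_apply, Module.Basis.reindex_apply, he, he, hB, cosetMap_shift]
  · exact shift_fixed_eq_norm (B.reindex e) (ρ g) hshift
  · exact shift_norm_eq_zero (B.reindex e) (ρ g) hshift

/-- `2` is a unit if the odd number `p` lies in the Jacobson radical. -/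
theorem isUnit_two_of_mem_jacobson {p : ℕ} (hodd : Odd p)
    (hpJ : (p : O) ∈ Ideal.jacobson (⊥ : Ideal O)) : IsUnit (2 : O) := by
  obtain ⟨m, hm⟩ := hodd
  have h1 : IsUnit ((p : O) * 1 + 1) := (Ideal.mem_jacobson_bot.mp hpJ) 1
  have h2 : (p : O) * 1 + 1 = 2 * ((m : O) + 1) := by
    rw [hm]
    push_cast
    ring
  rw [h2] at h1
  exact isUnit_of_mul_isUnit_left h1

/-- **Two-structure lemma for representations**: range equality along one element `g`. -/
theorem range_sub_one_eq_of_rep {p : ℕ} [Fintype D] (hp : p.Prime) (hodd : Odd p)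
    (h2 : IsUnit (2 : O)) (hpO : ∀ a : O, p • a = 0 → a = 0)
    (hD : ∃ a : ℕ, Fintype.card D = p ^ a)
    (ρX ρY : D →* Module.End O V) (hcomm : ∀ d d', Commute (ρX d) (ρY d'))
    (B : Module.Basis (D × ι) O V)
    (hB : ∀ (d e : D) (i : ι), ρX d (B (e, i)) = B (d * e, i)) (g : D)
    (hb : (ρY g - ρX g) * (ρY g * ρX g - 1) = 0) :
    LinearMap.range (ρY g - 1) = LinearMap.range (ρX g - 1) := by
  obtain ⟨a, ha⟩ := hD
  obtain ⟨k, _, hk⟩ := (Nat.dvd_prime_pow hp).mp (ha ▸ (orderOf_dvd_card (x := g)))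
  obtain ⟨F0, F2, F3⟩ := free_along (p := p) hpO ρX B hB g
  rw [hk] at F2 F3
  have hX : ρX g ^ (p ^ k) = 1 := by rw [← map_pow, ← hk, pow_orderOf_eq_one, map_one]
  have hY : ρY g ^ (p ^ k) = 1 := by rw [← map_pow, ← hk, pow_orderOf_eq_one, map_one]
  exact range_sub_one_eq_of_commute hp.pos hodd (ρX g) (ρY g) (hcomm g g) hX hY hb h2 F0 F2 F3

/-- **Basis transfer.**  `D` a finite commutative `p`-group (`p` odd, `p ∈ Jac O`, `O` without
`p`-torsion), `ρX ρY : D → End_O V` commuting representations, `(ρX d (b i))` an `O`-basis of `V`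
(i.e. `V` is free over `O[D]` via `ρX` with basis `b`), `S` a generating set of `D` with
`(ρY g - ρX g)(ρY g ρX g - 1) = 0` for `g ∈ S`.  Then `(ρY d (b i))` is an `O`-basis of `V` too, and
`(ρY g - 1) V = (ρX g - 1) V` for `g ∈ S`. -/
theorem basis_transfer {p : ℕ} [Fintype D] [Fintype ι] [Nontrivial O] (hp : p.Prime) (hodd : Odd p)
    (hpJ : (p : O) ∈ Ideal.jacobson (⊥ : Ideal O)) (hpO : ∀ a : O, p • a = 0 → a = 0)
    (hD : ∃ a : ℕ, Fintype.card D = p ^ a)
    (ρX ρY : D →* Module.End O V) (hcomm : ∀ d d', Commute (ρX d) (ρY d'))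
    (b : ι → V)
    (hli : LinearIndependent O (fun z : D × ι => ρX z.1 (b z.2)))
    (hsp : Submodule.span O (Set.range fun z : D × ι => ρX z.1 (b z.2)) = ⊤)
    (S : Set D) (hS : Subgroup.closure S = ⊤)
    (hb : ∀ g ∈ S, (ρY g - ρX g) * (ρY g * ρX g - 1) = 0) :
    (LinearIndependent O (fun z : D × ι => ρY z.1 (b z.2)) ∧
      Submodule.span O (Set.range fun z : D × ι => ρY z.1 (b z.2)) = ⊤) ∧
    ∀ g ∈ S, LinearMap.range (ρY g - 1) = LinearMap.range (ρX g - 1) := by
  classical
  have h2 := isUnit_two_of_mem_jacobson hodd hpJ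
  -- the `X`-basis
  let B : Module.Basis (D × ι) O V := Module.Basis.mk hli (by rw [hsp])
  have hBz : ∀ z : D × ι, B z = ρX z.1 (b z.2) := fun z => by
    simp only [B, Module.Basis.mk_apply]
  have hB : ∀ (d e : D) (i : ι), ρX d (B (e, i)) = B (d * e, i) := by
    intro d e i
    rw [hBz, hBz, map_mul, Module.End.mul_apply]
  -- range equalities
  have hrange : ∀ g ∈ S, LinearMap.range (ρY g - 1) = LinearMap.range (ρX g - 1) :=
    fun g hg => range_sub_one_eq_of_rep hp hodd h2 hpO hD ρX ρY hcomm B hB g (hb g hg)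
  refine ⟨?_, hrange⟩
  -- spanning
  set W : Submodule O V := Submodule.span O (Set.range fun z : D × ι => ρY z.1 (b z.2)) with hW
  have hWY : ∀ g : D, ∀ w ∈ W, ρY g w ∈ W := by
    intro g w hw
    induction hw using Submodule.span_induction with
    | mem x hx =>
      obtain ⟨z, rfl⟩ := hx
      apply Submodule.subset_span
      exact ⟨(g * z.1, z.2), by simp only [map_mul, Module.End.mul_apply]⟩
    | zero => rw [map_zero]; exact W.zero_mem
    | add x y _ _ hx hy => rw [map_add]; exact W.add_mem hx hy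
    | smul c x _ hx => rw [map_smul]; exact W.smul_mem c hx
  set pV : Submodule O V := (Ideal.span {(p : O)}) • (⊤ : Submodule O V) with hpV
  have hpVstab : ∀ (f : V →ₗ[O] V), ∀ z ∈ pV, f z ∈ pV := by
    intro f z hz
    refine Submodule.smul_induction_on hz ?_ ?_
    · intro r hr n _
      rw [map_smul]
      exact Submodule.smul_mem_smul hr Submodule.mem_top
    · intro x y hx hy
      rw [map_add]
      exact pV.add_mem hx hy
  let N : D → (V →ₗ[O] V) := fun g => ρY g - 1
  have hNcomm : ∀ g h, Commute (N g) (N h) := by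
    intro g h
    have : Commute (ρY g) (ρY h) := by
      show ρY g * ρY h = ρY h * ρY g
      rw [← map_mul, ← map_mul, mul_comm]
    exact (this.sub_left (Commute.one_left _)).sub_right (Commute.one_right _)
  obtain ⟨a, ha⟩ := hD
  have hnil : ∀ g v, ((N g) ^ (p ^ a)) v ∈ pV := by
    intro g v
    apply sub_one_pow_mem hp hodd (ρY g) a
    rw [← map_pow, ← ha, pow_card_eq_one, map_one]
  have hZstab : ∀ g, ∀ z ∈ W ⊔ pV, N g z ∈ W ⊔ pV := by
    intro g z hz
    obtain ⟨w, hw, y, hy, rfl⟩ := Submodule.mem_sup.mp hz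
    rw [map_add]
    refine Submodule.add_mem _ (Submodule.mem_sup_left ?_) (Submodule.mem_sup_right (hpVstab _ y hy))
    show (ρY g - 1) w ∈ W
    rw [LinearMap.sub_apply, Module.End.one_apply]
    exact W.sub_mem (hWY g w hw) hw
  -- the augmentation submodule
  let S' : Finset D := (Set.toFinite S).toFinset
  have hS' : ∀ g, g ∈ S' ↔ g ∈ S := fun g => Set.Finite.mem_toFinset _
  set IX : Submodule O V := S'.sup (fun g => LinearMap.range (ρX g - 1)) with hIX
  have hIXY : S'.sup (fun g => LinearMap.range (N g)) = IX := by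
    apply Finset.sup_congr rfl
    intro g hg
    exact hrange g ((hS' g).mp hg)
  have hXcomm : ∀ d e, Commute (ρX d) (ρX e) := by
    intro d e
    show ρX d * ρX e = ρX e * ρX d
    rw [← map_mul, ← map_mul, mul_comm]
  have hIXstab : ∀ d, ∀ z ∈ IX, ρX d z ∈ IX := by
    intro d
    have : IX ≤ IX.comap (ρX d) := by
      apply Finset.sup_le
      rintro g hg _ ⟨w, rfl⟩
      rw [Submodule.mem_comap]
      have hle : LinearMap.range (ρX g - 1) ≤ IX :=
        Finset.le_sup (f := fun g => LinearMap.range (ρX g - 1)) hg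
      have hmem : (ρX g - 1) (ρX d w) ∈ IX := hle ⟨ρX d w, rfl⟩
      have e1 : ρX d ((ρX g - 1) w) = (ρX g - 1) (ρX d w) := by
        have := congrArg (fun f : V →ₗ[O] V => f w) (hXcomm d g).eq
        simp only [Module.End.mul_apply] at this
        simp only [LinearMap.sub_apply, Module.End.one_apply, map_sub, this]
      rw [e1]
      exact hmem
    exact fun z hz => this hz
  have haug : ∀ d : D, ∀ v : V, (ρX d - 1) v ∈ IX := by
    intro d
    have hd : d ∈ Subgroup.closure S := by rw [hS]; exact Subgroup.mem_top d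
    induction hd using Subgroup.closure_induction with
    | mem g hg =>
      intro v
      have hle : LinearMap.range (ρX g - 1) ≤ IX :=
        Finset.le_sup (f := fun g => LinearMap.range (ρX g - 1)) ((hS' g).mpr hg)
      exact hle ⟨v, rfl⟩
    | one =>
      intro v
      rw [map_one, sub_self, LinearMap.zero_apply]
      exact IX.zero_mem
    | mul d e _ _ hd he =>
      intro v
      have : (ρX (d * e) - 1) v = ρX d ((ρX e - 1) v) + (ρX d - 1) v := by
        simp only [map_mul, LinearMap.sub_apply, Module.End.mul_apply, Module.End.one_apply, map_sub]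
        abel
      rw [this]
      exact IX.add_mem (hIXstab d _ (he v)) (hd v)
    | inv d _ hd =>
      intro v
      have : (ρX d⁻¹ - 1) v = - ((ρX d - 1) (ρX d⁻¹ v)) := by
        have h1 : ρX d (ρX d⁻¹ v) = v := by
          rw [← Module.End.mul_apply, ← map_mul, mul_inv_cancel, map_one, Module.End.one_apply]
        simp only [LinearMap.sub_apply, Module.End.one_apply, h1]
        abel
      rw [this]
      exact IX.neg_mem (hd _)
  have hstart : ⊤ ≤ (W ⊔ pV) ⊔ S'.sup (fun g => LinearMap.range (N g)) := by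
    rw [hIXY, ← hsp, Submodule.span_le]
    rintro _ ⟨z, rfl⟩
    have hbW : b z.2 ∈ W := by
      apply Submodule.subset_span
      exact ⟨(1, z.2), by simp only [map_one, Module.End.one_apply]⟩
    have : ρX z.1 (b z.2) = b z.2 + (ρX z.1 - 1) (b z.2) := by
      simp only [LinearMap.sub_apply, Module.End.one_apply]
      abel
    simp only [SetLike.mem_coe]
    rw [this]
    exact Submodule.add_mem _ (Submodule.mem_sup_left (Submodule.mem_sup_left hbW))
      (Submodule.mem_sup_right (haug z.1 _))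
  have hWp : ⊤ ≤ W ⊔ pV :=
    top_le_of_nilpotent_family N (p ^ a) hNcomm pV hnil S' (W ⊔ pV) le_sup_right hZstab hstart
  have : Module.Finite O V := Module.Finite.of_basis B
  have hWtop : (⊤ : Submodule O V) ≤ W := by
    apply Submodule.le_of_le_smul_of_le_jacobson_bot (I := Ideal.span {(p : O)})
      Module.Finite.fg_top
    · rw [Ideal.span_le]
      intro x hx
      rw [Set.mem_singleton_iff.mp hx]
      exact hpJ
    · exact hWp
  have hspY : Submodule.span O (Set.range fun z : D × ι => ρY z.1 (b z.2)) = ⊤ :=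
    top_le_iff.mp hWtop
  refine ⟨?_, hspY⟩
  apply linearIndependent_of_top_le_span_of_card_eq_finrank hWtop
  rw [Module.finrank_eq_card_basis B]

end Main

end Fermat.Agent.S59.H525
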